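import Mathlib.Analysis.Complex.Basic
import Mathlib.RingTheory.PowerSeries.Basic
import Mathlib.RingTheory.PowerSeries.Inverse
import Mathlib.RingTheory.PowerSeries.NoZeroDivisors
import Mathlib.Tactic

/-!
# Blaschke factors contract the partial sums of squares

If `(1 - ā X) y = (X - a) x` then, with `w N = ∑ ā ^ (N - 1 - i) x i`, the identity
`∑_{n < N} |y n| ^ 2 + (1 - |a| ^ 2) |w N| ^ 2 = ∑_{n < N} |x n| ^ 2` holds.
-/

set_option autoImplicit false

noncomputable section

open Finset PowerSeries ComplexConjugate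

namespace FA.SalemClosed

/-- The state of the recursion of a Blaschke factor. -/
def state (a : ℂ) (x : ℂ⟦X⟧) (N : ℕ) : ℂ :=
  ∑ i ∈ range N, conj a ^ (N - 1 - i) * coeff i x

theorem state_succ (a : ℂ) (x : ℂ⟦X⟧) (N : ℕ) :
    state a x (N + 1) = conj a * state a x N + coeff N x := by
  rw [state, sum_range_succ, Nat.add_sub_cancel, Nat.sub_self, pow_zero, one_mul, state, mul_sum]
  congr 1
  refine sum_congr rfl fun i hi => ?_
  rw [mem_range] at hi
  rw [← mul_assoc, ← pow_succ', show N - i = N - 1 - i + 1 by omega]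

theorem coeff_blaschke {a : ℂ} {x y : ℂ⟦X⟧}
    (h : (1 - C (conj a) * X) * y = (X - C a) * x) (n : ℕ) :
    coeff n y = -a * coeff n x + (1 - conj a * a) * state a x n := by
  induction n with
  | zero =>
    have h0 := congrArg (coeff (R := ℂ) 0) h
    simp only [coeff_zero_eq_constantCoeff, map_mul, map_sub, map_one, constantCoeff_X,
      constantCoeff_C, mul_zero, sub_zero, one_mul, zero_sub] at h0
    simp [state, coeff_zero_eq_constantCoeff, h0]
  | succ n ih =>
    have h1 := congrArg (coeff (R := ℂ) (n + 1)) h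
    simp only [sub_mul, one_mul, mul_assoc, map_sub, coeff_C_mul, coeff_succ_X_mul] at h1
    rw [state_succ]
    linear_combination h1 + conj a * ih

theorem blaschke_identity {a : ℂ} {x y : ℂ⟦X⟧}
    (h : (1 - C (conj a) * X) * y = (X - C a) * x) (N : ℕ) :
    ∑ n ∈ range N, ‖coeff n y‖ ^ 2 + (1 - ‖a‖ ^ 2) * ‖state a x N‖ ^ 2 =
      ∑ n ∈ range N, ‖coeff n x‖ ^ 2 := by
  induction N with
  | zero => simp [state]
  | succ N ih =>
    rw [sum_range_succ, sum_range_succ, ← ih, state_succ, coeff_blaschke h]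
    simp only [Complex.sq_norm, Complex.normSq_apply, Complex.add_re, Complex.add_im,
      Complex.mul_re, Complex.mul_im, Complex.sub_re, Complex.sub_im, Complex.neg_re,
      Complex.neg_im, Complex.one_re, Complex.one_im, Complex.conj_re, Complex.conj_im]
    ring

theorem sum_le_of_blaschke {a : ℂ} (ha : ‖a‖ ≤ 1) {x y : ℂ⟦X⟧}
    (h : (1 - C (conj a) * X) * y = (X - C a) * x) (N : ℕ) :
    ∑ n ∈ range N, ‖coeff n y‖ ^ 2 ≤ ∑ n ∈ range N, ‖coeff n x‖ ^ 2 := by
  rw [← blaschke_identity h N]
  have : ‖a‖ ^ 2 ≤ 1 := pow_le_one₀ (norm_nonneg a) ha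
  nlinarith [sq_nonneg ‖state a x N‖]

/-- A finite Blaschke product contracts. -/
theorem sum_le_of_product (s : Multiset ℂ) (hs : ∀ a ∈ s, ‖a‖ ≤ 1) {x y : ℂ⟦X⟧}
    (h : y * (s.map fun a => 1 - C (conj a) * X).prod = x * (s.map fun a => X - C a).prod)
    (N : ℕ) : ∑ n ∈ range N, ‖coeff n y‖ ^ 2 ≤ ∑ n ∈ range N, ‖coeff n x‖ ^ 2 := by
  induction s using Multiset.induction_on generalizing y with
  | empty =>
    simp only [Multiset.map_zero, Multiset.prod_zero, mul_one] at h
    rw [h]
  | cons a t ih =>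
    simp only [Multiset.map_cons, Multiset.prod_cons] at h
    set B := (t.map fun a => 1 - C (conj a) * X).prod with hB
    have hB1 : constantCoeff B = 1 := by
      simp [hB, map_multiset_prod]
    have hB0 : B ≠ 0 := fun e => by simp [e] at hB1
    set z := x * (t.map fun a => X - C a).prod * invOfUnit B 1 with hz
    have hzB : z * B = x * (t.map fun a => X - C a).prod := by
      rw [hz, mul_assoc, invOfUnit_mul B 1 (by simpa using hB1), mul_one]
    have hy : (1 - C (conj a) * X) * y = (X - C a) * z := by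
      refine mul_right_cancel₀ hB0 ?_
      rw [mul_assoc (X - C a), hzB]
      linear_combination h
    exact (sum_le_of_blaschke (hs a (Multiset.mem_cons_self a t)) hy N).trans
      (ih (fun b hb => hs b (Multiset.mem_cons_of_mem hb)) hzB)

end FA.SalemClosed

end
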