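import Mathlib.Algebra.Polynomial.Reverse
import Mathlib.Analysis.Complex.Polynomial.Basic
import Mathlib.FieldTheory.Perfect
import Mathlib.RingTheory.Polynomial.RationalRoot
import Mathlib.RingTheory.PowerSeries.Trunc
import Fermat.Agent.PisotCriterion.Criterion
import Fermat.Agent.SalemClosed.Blaschke

/-!
# The integral series of a Pisot number

For a Pisot number `θ` with minimal polynomial `P` of degree `d` the series `c = P / P*`,
`P* = X ^ d P (1 / X)`, has integer coefficients, and Blaschke's contraction bounds them.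
-/

set_option autoImplicit false

noncomputable section

open Finset ComplexConjugate

namespace FA.SalemClosed

open Polynomial in
theorem reverse_X_sub_C (a : ℂ) : (X - C a).reverse = 1 - C a * X := by
  rw [sub_eq_add_neg, ← C_neg, reverse_add_C, natDegree_X, pow_one]
  rw [show (X : ℂ[X]).reverse = 1 by
      rw [reverse, natDegree_X, ← pow_one X, reflect_monomial, revAt_le le_rfl, Nat.sub_self,
        pow_zero],
    C_neg, neg_mul, ← sub_eq_add_neg]

open Polynomial in
theorem reverse_map_int (f : ℤ[X]) :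
    f.reverse.map (Int.castRingHom ℂ) = (f.map (Int.castRingHom ℂ)).reverse := by
  ext n
  rw [coeff_map, coeff_reverse, coeff_reverse, coeff_map,
    natDegree_map_eq_of_injective (RingHom.injective_int _)]

/-- The data: coefficients bounded by the two contractions, with the equality case. -/
theorem exists_coeffs {θ : ℝ} (h : PisotCriterion.IsPisot θ) :
    ∃ c : ℕ → ℤ, c 0 ≠ 0 ∧
      (∀ N, (c 0 : ℝ) ^ 2 + ∑ n ∈ range N, ((c (n + 1) : ℝ) - θ * c n) ^ 2 ≤ θ ^ 2 + 1) ∧
      (∀ N, ∑ n ∈ range N, (c n : ℝ) ^ 2 ≤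
        1 + (∑ i ∈ range N, θ⁻¹ ^ (N - 1 - i) * c i) ^ 2) ∧
      (c 0 ^ 2 = 1 → c 1 = 0 → ∃ m : ℤ, θ + θ⁻¹ = m) := by
  classical
  obtain ⟨hθ, hint, hconj⟩ := h
  have hθ0 : θ ≠ 0 := by linarith
  have hθC : (θ : ℂ) ≠ 0 := by exact_mod_cast hθ0
  set P := minpoly ℤ θ with hP
  have hPm : P.Monic := minpoly.monic hint
  set F : PowerSeries ℤ := (P : PowerSeries ℤ) *
    PowerSeries.invOfUnit (P.reverse : PowerSeries ℤ) 1 with hF
  have hFQ : F * (P.reverse : PowerSeries ℤ) = P := by
    rw [hF, mul_assoc, PowerSeries.invOfUnit_mul _ _ (by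
      simp [Polynomial.coeff_zero_reverse, hPm.leadingCoeff]), mul_one]
  -- the complex roots
  set f : Polynomial ℂ := P.map (Int.castRingHom ℂ) with hf
  have hfm : f.Monic := hPm.map _
  have hroot : ∀ z : ℂ, z ∈ f.roots ↔ Polynomial.aeval z P = 0 := fun z => by
    rw [Polynomial.mem_roots hfm.ne_zero, Polynomial.IsRoot, hf, Polynomial.eval_map,
      Polynomial.aeval_def, algebraMap_int_eq]
  have hθr : (θ : ℂ) ∈ f.roots := by
    rw [hroot, show (θ : ℂ) = algebraMap ℝ ℂ θ from rfl, Polynomial.aeval_algebraMap_apply,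
      minpoly.aeval, map_zero]
  have hnd : f.roots.Nodup := by
    refine Polynomial.nodup_roots ?_
    have hs := ((minpoly.irreducible (hint.tower_top (A := ℚ))).separable).map
      (f := algebraMap ℚ ℂ)
    rwa [minpoly.isIntegrallyClosed_eq_field_fractions' ℚ hint, Polynomial.map_map,
      ← IsScalarTower.algebraMap_eq, algebraMap_int_eq, ← hP, ← hf] at hs
  set s := f.roots.erase (θ : ℂ) with hs
  have hrs : f.roots = (θ : ℂ) ::ₘ s := (Multiset.cons_erase hθr).symm
  have hslt : ∀ a ∈ s, ‖a‖ < 1 := fun a ha => by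
    rw [hs, hnd.mem_erase_iff] at ha
    exact hconj a ((hroot a).1 ha.2) ha.1
  have hfac : f = (Polynomial.X - Polynomial.C (θ : ℂ)) *
      (s.map fun a => Polynomial.X - Polynomial.C a).prod := by
    conv_lhs => rw [(IsAlgClosed.splits f).eq_prod_roots_of_monic hfm, hrs]
    rw [Multiset.map_cons, Multiset.prod_cons]
  have hrev : f.reverse = (1 - Polynomial.C (θ : ℂ) * Polynomial.X) *
      (s.map fun a => 1 - Polynomial.C a * Polynomial.X).prod := by
    have hmul : ∀ t : Multiset ℂ, (t.map fun a => Polynomial.X - Polynomial.C a).prod.reverse =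
        (t.map fun a => 1 - Polynomial.C a * Polynomial.X).prod := fun t => by
      induction t using Multiset.induction_on with
      | empty =>
        simp only [Multiset.map_zero, Multiset.prod_zero]
        rw [← Polynomial.C_1, Polynomial.reverse_C]
      | cons a t ih => simp [Polynomial.reverse_mul_of_domain, reverse_X_sub_C, ih]
    rw [hfac, Polynomial.reverse_mul_of_domain, reverse_X_sub_C, hmul]
  have hrev' : f.reverse = (1 - Polynomial.C (θ : ℂ) * Polynomial.X) *
      (s.map fun a => 1 - Polynomial.C (conj a) * Polynomial.X).prod := by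
    have h1 := congrArg (Polynomial.map (conj : ℂ →+* ℂ)) hrev
    rw [← reverse_map_int, Polynomial.map_map, show (conj : ℂ →+* ℂ).comp (Int.castRingHom ℂ) =
      Int.castRingHom ℂ from RingHom.ext_int _ _, reverse_map_int, ← hf] at h1
    rw [h1]
    simp [Polynomial.map_multiset_prod]
  set A : PowerSeries ℂ := (s.map fun a => PowerSeries.X - PowerSeries.C a).prod with hA
  set B : PowerSeries ℂ :=
    (s.map fun a => 1 - PowerSeries.C (conj a) * PowerSeries.X).prod with hB
  set G : PowerSeries ℂ := PowerSeries.map (Int.castRingHom ℂ) F with hG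
  have hGB : G * ((1 - PowerSeries.C (θ : ℂ) * PowerSeries.X) * B) =
      (PowerSeries.X - PowerSeries.C (θ : ℂ)) * A := by
    have h1 := congrArg (PowerSeries.map (Int.castRingHom ℂ)) hFQ
    rw [map_mul, ← Polynomial.polynomial_map_coe, ← Polynomial.polynomial_map_coe,
      reverse_map_int, ← hf, ← hG] at h1
    rw [hrev', hfac] at h1
    simp only [← Polynomial.coeToPowerSeries.ringHom_apply, map_mul, map_sub, map_one,
      map_multiset_prod, Multiset.map_map, Function.comp_def] at h1
    simpa only [hA, hB, Polynomial.coeToPowerSeries.ringHom_apply, Polynomial.coe_C,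
      Polynomial.coe_X] using h1
  have hcG : ∀ n, PowerSeries.coeff n G = ((PowerSeries.coeff n F : ℤ) : ℂ) := fun n => by
    simp [hG]
  have hbound : ∀ N, ((PowerSeries.coeff 0 F : ℤ) : ℝ) ^ 2 + ∑ n ∈ range N,
      (((PowerSeries.coeff (n + 1) F : ℤ) : ℝ) - θ * (PowerSeries.coeff n F : ℤ)) ^ 2
        ≤ θ ^ 2 + 1 := by
    intro N
    have h1 := sum_le_of_product s (fun a ha => (hslt a ha).le)
      (y := G * (1 - PowerSeries.C (θ : ℂ) * PowerSeries.X))
      (x := PowerSeries.X - PowerSeries.C (θ : ℂ)) (by rw [mul_assoc]; exact hGB) (N + 1)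
    have hy : ∀ n, PowerSeries.coeff (n + 1) (G * (1 - PowerSeries.C (θ : ℂ) * PowerSeries.X)) =
        ((((PowerSeries.coeff (n + 1) F : ℤ) : ℝ) - θ * (PowerSeries.coeff n F : ℤ) : ℝ) : ℂ) :=
      fun n => by
        rw [mul_sub, mul_one, mul_left_comm, map_sub, PowerSeries.coeff_C_mul,
          PowerSeries.coeff_succ_mul_X, hcG, hcG]
        push_cast
        rfl
    rw [sum_range_succ' (fun n => ‖PowerSeries.coeff n _‖ ^ 2) N, sum_range_succ'] at h1
    simp only [hy, Complex.norm_real, Real.norm_eq_abs, sq_abs] at h1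
    have h0 : ‖PowerSeries.coeff 0 (G * (1 - PowerSeries.C (θ : ℂ) * PowerSeries.X))‖ ^ 2 =
        ((PowerSeries.coeff 0 F : ℤ) : ℝ) ^ 2 := by
      rw [PowerSeries.coeff_zero_eq_constantCoeff_apply, map_mul,
        ← PowerSeries.coeff_zero_eq_constantCoeff_apply G, hcG]
      simp
    have hx : ∑ n ∈ range N,
        ‖PowerSeries.coeff (n + 1) (PowerSeries.X - PowerSeries.C (θ : ℂ))‖ ^ 2 ≤ 1 := by
      refine (Finset.sum_le_sum_of_subset_of_nonneg (range_mono (Nat.le_add_right N 1))
        fun i _ _ => sq_nonneg _).trans ?_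
      rw [sum_range_succ']
      simp [PowerSeries.coeff_X]
    have hx0 : ‖PowerSeries.coeff 0 (PowerSeries.X - PowerSeries.C (θ : ℂ))‖ ^ 2 = θ ^ 2 := by
      simp [PowerSeries.coeff_zero_eq_constantCoeff]
    rw [h0, hx0] at h1
    linarith
  refine ⟨fun n => PowerSeries.coeff n F, ?_, ?_, ?_, ?_⟩
  · show PowerSeries.coeff 0 F ≠ 0
    rw [PowerSeries.coeff_zero_eq_constantCoeff, hF, map_mul,
      PowerSeries.constantCoeff_invOfUnit, inv_one, Units.val_one, mul_one,
      Polynomial.constantCoeff_coe]
    intro h0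
    have h1 := minpoly.coeff_zero_ne_zero (A := ℚ) hint.tower_top hθ0
    rw [minpoly.isIntegrallyClosed_eq_field_fractions' ℚ hint, Polynomial.coeff_map, ← hP, h0,
      map_zero] at h1
    exact h1 rfl
  · exact hbound
  · intro N
    set a : ℂ := ((θ⁻¹ : ℝ) : ℂ) with ha
    have hca : conj a = a := Complex.conj_ofReal _
    set L : PowerSeries ℂ := 1 - PowerSeries.C (conj a) * PowerSeries.X with hL
    have hL1 : PowerSeries.constantCoeff L = 1 := by simp [hL]
    set y : PowerSeries ℂ := (PowerSeries.X - PowerSeries.C a) * G * PowerSeries.invOfUnit L 1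
      with hy
    have hLy : L * y = (PowerSeries.X - PowerSeries.C a) * G := by
      rw [hy, mul_left_comm, PowerSeries.mul_invOfUnit L 1 (by simpa using hL1), mul_one]
    have haθ : PowerSeries.C a * PowerSeries.C (θ : ℂ) = (1 : PowerSeries ℂ) := by
      rw [← map_mul, ha, ← Complex.ofReal_mul, inv_mul_cancel₀ hθ0, Complex.ofReal_one, map_one]
    have hyB : y * B = 1 * A := by
      have hne : L ≠ 0 := fun e => by simp [e] at hL1
      refine mul_left_cancel₀ hne ?_
      rw [← mul_assoc, hLy, one_mul, hL, hca]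
      linear_combination (-(PowerSeries.C a)) * hGB +
        (A - G * B * PowerSeries.X) * haθ
    have h1 := sum_le_of_product s (fun a ha => (hslt a ha).le) hyB N
    have h2 := blaschke_identity hLy N
    have h3 : ∑ n ∈ range N, ‖PowerSeries.coeff n (1 : PowerSeries ℂ)‖ ^ 2 ≤ 1 := by
      refine (Finset.sum_le_sum_of_subset_of_nonneg (range_mono (Nat.le_add_right N 1))
        fun i _ _ => sq_nonneg _).trans ?_
      rw [sum_range_succ']
      simp [PowerSeries.coeff_one]
    have hst : state a G N =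
        ((∑ i ∈ range N, θ⁻¹ ^ (N - 1 - i) * ((PowerSeries.coeff i F : ℤ) : ℝ) : ℝ) : ℂ) := by
      simp only [state, hca]
      simp only [hcG, ha]
      push_cast
      rfl
    rw [hst] at h2
    simp only [hcG, ha, Complex.norm_real, Complex.norm_intCast, Real.norm_eq_abs,
      sq_abs] at h2
    rw [← h2]
    have h4 : (1 - θ⁻¹ ^ 2) * (∑ i ∈ range N, θ⁻¹ ^ (N - 1 - i) *
        ((PowerSeries.coeff i F : ℤ) : ℝ)) ^ 2 ≤ 1 * (∑ i ∈ range N, θ⁻¹ ^ (N - 1 - i) *
        ((PowerSeries.coeff i F : ℤ) : ℝ)) ^ 2 :=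
      mul_le_mul_of_nonneg_right (sub_le_self _ (sq_nonneg _)) (sq_nonneg _)
    linarith
  · -- the equality case
    intro h0 h1
    have h0' : ((PowerSeries.coeff 0 F : ℤ) : ℝ) ^ 2 = 1 := by exact_mod_cast h0
    have hzero : ∀ n, 1 ≤ n → PowerSeries.coeff n F = 0 := by
      intro n hn
      induction n, hn using Nat.le_induction with
      | base => exact h1
      | succ n hn ih =>
        have hb := hbound (n + 1)
        set g : ℕ → ℝ := fun j => (((PowerSeries.coeff (j + 1) F : ℤ) : ℝ) -
          θ * (PowerSeries.coeff j F : ℤ)) ^ 2 with hg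
        have hg0 : g 0 = θ ^ 2 := by
          simp only [hg, h1, Int.cast_zero, zero_sub, neg_sq, mul_pow, h0', mul_one]
        have hsub : g 0 + g n ≤ ∑ j ∈ range (n + 1), g j := by
          rw [← Finset.sum_pair (show (0 : ℕ) ≠ n by omega)]
          refine Finset.sum_le_sum_of_subset_of_nonneg (fun i hi => ?_) fun i _ _ => sq_nonneg _
          simp only [Finset.mem_insert, Finset.mem_singleton] at hi
          rw [mem_range]
          omega
        have hgn : g n ≤ 0 := by linarith
        simp only [hg, ih, Int.cast_zero, mul_zero, sub_zero] at hgn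
        exact_mod_cast pow_eq_zero_iff (two_ne_zero) |>.1 (le_antisymm hgn (sq_nonneg _))
    -- `P` is a multiple of its reverse
    have hFc : F = ((Polynomial.C (PowerSeries.coeff 0 F) : Polynomial ℤ) : PowerSeries ℤ) := by
      ext n
      rw [Polynomial.coeff_coe, Polynomial.coeff_C]
      split_ifs with hn
      · rw [hn]
      · exact hzero n (Nat.one_le_iff_ne_zero.2 hn)
    have hPQ : P = Polynomial.C (PowerSeries.coeff 0 F) * P.reverse :=
      Polynomial.coe_injective ℤ (by rw [Polynomial.coe_mul, ← hFc, hFQ])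
    have hPC : f = Polynomial.C ((PowerSeries.coeff 0 F : ℤ) : ℂ) * f.reverse := by
      have h := congrArg (Polynomial.map (Int.castRingHom ℂ)) hPQ
      rwa [Polynomial.map_mul, Polynomial.map_C, reverse_map_int, eq_intCast, ← hf] at h
    have hinv : ∀ z ∈ f.roots, z = (θ : ℂ)⁻¹ ∨ ∃ a ∈ s, a * z = 1 := by
      intro z hz
      have h := (Polynomial.mem_roots'.1 hz).2
      have hc : ((PowerSeries.coeff 0 F : ℤ) : ℂ) ≠ 0 := by
        intro e
        rw [Int.cast_eq_zero] at e
        simp [e] at h0
      rw [Polynomial.IsRoot, hPC, Polynomial.eval_mul, Polynomial.eval_C, mul_eq_zero,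
        or_iff_right hc, hrev, Polynomial.eval_mul, Polynomial.eval_multiset_prod,
        mul_eq_zero] at h
      rcases h with h | h
      · refine Or.inl (eq_inv_of_mul_eq_one_right ?_)
        simp only [Polynomial.eval_sub, Polynomial.eval_mul, Polynomial.eval_one,
          Polynomial.eval_C, Polynomial.eval_X] at h
        linear_combination -h
      · rw [Multiset.prod_eq_zero_iff, Multiset.map_map, Multiset.mem_map] at h
        obtain ⟨a, ha, ha0⟩ := h
        simp only [Function.comp_apply, Polynomial.eval_sub, Polynomial.eval_mul,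
          Polynomial.eval_one, Polynomial.eval_C, Polynomial.eval_X] at ha0
        exact Or.inr ⟨a, ha, by linear_combination -ha0⟩
    have hall : ∀ z ∈ s, z = (θ : ℂ)⁻¹ := by
      intro z hz
      refine (hinv z (by rw [hrs]; exact Multiset.mem_cons_of_mem hz)).resolve_right ?_
      rintro ⟨a, ha, haz⟩
      have := congrArg (fun w : ℂ => ‖w‖) haz
      simp only [norm_mul, norm_one] at this
      nlinarith [norm_nonneg a, norm_nonneg z, hslt a ha, hslt z hz]
    obtain ⟨a, ha, haθ⟩ : ∃ a ∈ s, a * (θ : ℂ) = 1 := by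
      refine (hinv _ hθr).resolve_left fun e => ?_
      have hsq : θ * θ = 1 := by
        have : (θ : ℂ) * θ = 1 := by nth_rw 2 [e]; rw [mul_inv_cancel₀ hθC]
        exact_mod_cast this
      nlinarith
    have hs1 : s = {a} := by
      have hsd : s.Nodup := hnd.erase _
      obtain ⟨t, ht⟩ := Multiset.exists_cons_of_mem ha
      have ht0 : t = 0 := Multiset.eq_zero_of_forall_notMem fun z hz => by
        have hza : z = a := (hall z (by rw [ht]; exact Multiset.mem_cons_of_mem hz)).trans
          (hall a ha).symm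
        rw [ht, Multiset.nodup_cons] at hsd
        exact hsd.1 (hza ▸ hz)
      rw [ht, ht0, Multiset.cons_zero]
    refine ⟨-P.coeff 1, ?_⟩
    have h1' : f.coeff 1 = -((θ : ℂ) + (θ : ℂ)⁻¹) := by
      rw [hfac, hs1, Multiset.map_singleton, Multiset.prod_singleton, hall a ha,
        show (Polynomial.X - Polynomial.C (θ : ℂ)) * (Polynomial.X - Polynomial.C (θ : ℂ)⁻¹) =
          Polynomial.X ^ 2 + Polynomial.C (-((θ : ℂ) + (θ : ℂ)⁻¹)) * Polynomial.X +
            Polynomial.C ((θ : ℂ) * (θ : ℂ)⁻¹) by simp only [map_neg, map_add, map_mul]; ring]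
      simp [Polynomial.coeff_X_pow]
    rw [hf, Polynomial.coeff_map, eq_intCast] at h1'
    have h2 : ((P.coeff 1 : ℤ) : ℝ) = -(θ + θ⁻¹) := by exact_mod_cast h1'
    push_cast
    linarith

end FA.SalemClosed

end
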