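import Mathlib.Algebra.AlgebraicCard
import Mathlib.Topology.Algebra.Module.Cardinality
import Mathlib.Topology.Instances.Int
import Mathlib.Topology.Metrizable.Basic
import Mathlib.Topology.Sequences
import Fermat.Agent.PisotCriterion.Theorem
import Fermat.Agent.SalemClosed.Coeffs
import Fermat.Agent.Smyth.Theorem

/-!
# Salem's theorem: the set of Pisot numbers is closed
-/

set_option autoImplicit false

noncomputable section

open Finset Filter Topology

namespace FA.SalemClosed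

open PisotCriterion

/-- The set of Pisot numbers. -/
def pisotSet : Set ℝ := {θ | IsPisot θ}

theorem coeff_bound {θ T : ℝ} (hθ : 1 < θ) (hT : θ ≤ T) {c : ℕ → ℤ}
    (h : ∀ N, (c 0 : ℝ) ^ 2 + ∑ n ∈ range N, ((c (n + 1) : ℝ) - θ * c n) ^ 2 ≤ θ ^ 2 + 1)
    (n : ℕ) : |(c n : ℝ)| ≤ (n + 1) * (T + 1) ^ (n + 1) := by
  have hT1 : 1 ≤ T + 1 := by linarith
  have hb : θ ^ 2 + 1 ≤ (T + 1) ^ 2 := by nlinarith
  induction n with
  | zero =>
    have h1 := (h 0).trans hb
    rw [sum_range_zero, add_zero] at h1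
    simpa using (abs_le_of_sq_le_sq h1 (by linarith) : |(c 0 : ℝ)| ≤ T + 1)
  | succ n ih =>
    have h1 : ((c (n + 1) : ℝ) - θ * c n) ^ 2 ≤ (T + 1) ^ 2 := by
      refine le_trans ?_ ((h (n + 1)).trans hb)
      exact le_add_of_nonneg_of_le (sq_nonneg _) (Finset.single_le_sum
        (f := fun j => ((c (j + 1) : ℝ) - θ * c j) ^ 2) (fun j _ => sq_nonneg _)
        (Finset.self_mem_range_succ n))
    have h2 : |(c (n + 1) : ℝ)| ≤ θ * |(c n : ℝ)| + (T + 1) :=
      calc |(c (n + 1) : ℝ)| ≤ |θ * (c n : ℝ)| + |(c (n + 1) : ℝ) - θ * c n| := by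
            simpa using abs_add_le (θ * (c n : ℝ)) ((c (n + 1) : ℝ) - θ * c n)
        _ ≤ θ * |(c n : ℝ)| + (T + 1) := by
            rw [abs_mul, abs_of_pos (by linarith : 0 < θ)]
            exact add_le_add_right (abs_le_of_sq_le_sq h1 (by linarith)) _
    refine h2.trans ((add_le_add_left (mul_le_mul (hT.trans (le_add_of_nonneg_right zero_le_one)) ih
      (abs_nonneg _) (by linarith)) _).trans ?_)
    push_cast
    have h3 : T + 1 ≤ (T + 1) ^ (n + 2) := le_self_pow₀ hT1 (by omega)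
    rw [pow_succ (T + 1) (n + 1)]
    nlinarith [h3, pow_succ (T + 1) (n + 1)]

/-- The two bounds for a limit give a Pisot number, unless the series is `± 1`. -/
theorem isPisot_of_bounds {θ : ℝ} (hθ : 1 < θ) {c : ℕ → ℤ} (hc0 : c 0 ≠ 0)
    (hA : ∀ N, (c 0 : ℝ) ^ 2 + ∑ n ∈ range N, ((c (n + 1) : ℝ) - θ * c n) ^ 2 ≤ θ ^ 2 + 1)
    (hB : ∀ N, ∑ n ∈ range N, (c n : ℝ) ^ 2 ≤
      1 + (∑ i ∈ range N, θ⁻¹ ^ (N - 1 - i) * c i) ^ 2) :
    IsPisot θ ∨ (c 0 ^ 2 = 1 ∧ c 1 = 0) := by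
  have hθ0 : (0 : ℝ) < θ := by linarith
  set d : ℕ → ℝ := fun n => (c (n + 1) : ℝ) - θ * c n with hd
  set D : ℝ := θ + 1 with hD
  have hdD : ∀ n, |d n| ≤ D := fun n => by
    refine abs_le_of_sq_le_sq ?_ (by linarith)
    refine le_trans (le_trans ?_ (hA (n + 1))) (by rw [hD]; nlinarith)
    exact le_add_of_nonneg_of_le (sq_nonneg _) (Finset.single_le_sum (f := fun j => d j ^ 2)
      (fun j _ => sq_nonneg _) (Finset.self_mem_range_succ n))
  set t : ℕ → ℝ := fun n => (c n : ℝ) / θ ^ n with ht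
  have hθn : ∀ n, θ ^ n ≠ 0 := fun n => pow_ne_zero _ hθ0.ne'
  have hstep : ∀ n, dist (t n) (t (n + 1)) ≤ D / θ * θ⁻¹ ^ n := fun n => by
    have e : t (n + 1) - t n = d n / θ * θ⁻¹ ^ n := by
      simp only [ht, hd, inv_pow]
      field_simp
      ring
    rw [dist_comm, Real.dist_eq, e, abs_mul, abs_div, abs_of_pos hθ0,
      abs_of_pos (pow_pos (inv_pos.2 hθ0) n : (0 : ℝ) < θ⁻¹ ^ n)]
    gcongr
    exact hdD n
  have hr : θ⁻¹ < 1 := inv_lt_one_of_one_lt₀ hθ
  obtain ⟨lam, hlim⟩ := cauchySeq_tendsto_of_complete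
    (cauchySeq_of_le_geometric θ⁻¹ (D / θ) hr hstep)
  set ε : ℕ → ℝ := fun n => lam * θ ^ n - c n with hε
  have hεb : ∀ n, |ε n| ≤ D / θ / (1 - θ⁻¹) := fun n => by
    have h1 := dist_le_of_le_geometric_of_tendsto θ⁻¹ (D / θ) hr hstep hlim n
    rw [Real.dist_eq, abs_sub_comm] at h1
    have e : ε n = (lam - t n) * θ ^ n := by
      simp only [ht, hε]
      field_simp
    rw [e, abs_mul, abs_of_pos (pow_pos hθ0 n)]
    refine (mul_le_mul_of_nonneg_right h1 (pow_pos hθ0 n).le).trans_eq ?_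
    rw [inv_pow]
    field_simp
  set E : ℝ := D / θ / (1 - θ⁻¹)
  -- `θ ε n = d n + ε (n + 1)`, hence the squares are summable
  have hrec : ∀ n, θ * ε n = d n + ε (n + 1) := fun n => by
    simp only [hε, hd, pow_succ]
    ring
  have hsum : Summable fun n => ε n ^ 2 := by
    have hq : ∀ n, θ * (θ - 1) * θ * ε n ^ 2 ≤ θ * d n ^ 2 + θ * (θ - 1) * ε (n + 1) ^ 2 :=
      fun n => by
      have e : (θ * ε n) ^ 2 = (d n + ε (n + 1)) ^ 2 := by rw [hrec]
      nlinarith [sq_nonneg (d n - (θ - 1) * ε (n + 1))]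
    have htel : ∀ N, θ * (θ - 1) * (θ - 1) * ∑ n ∈ range N, ε n ^ 2 + θ * (θ - 1) * ε 0 ^ 2 ≤
        θ * ∑ n ∈ range N, d n ^ 2 + θ * (θ - 1) * ε N ^ 2 := fun N => by
      induction N with
      | zero => simp
      | succ N ih =>
        rw [sum_range_succ, sum_range_succ]
        nlinarith [hq N]
    refine summable_of_sum_range_le (fun n => sq_nonneg _)
      (c := (θ * (θ ^ 2 + 1) + θ * (θ - 1) * E ^ 2) / (θ * (θ - 1) * (θ - 1))) fun N => ?_
    have hpos : (0 : ℝ) < θ * (θ - 1) * (θ - 1) := by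
      have : 0 < θ - 1 := by linarith
      positivity
    rw [le_div_iff₀' hpos]
    have h1 : ∑ n ∈ range N, d n ^ 2 ≤ θ ^ 2 + 1 :=
      le_trans (le_add_of_nonneg_left (sq_nonneg _)) (hA N)
    have h2 : ε N ^ 2 ≤ E ^ 2 := by
      rw [← sq_abs (ε N)]
      exact pow_le_pow_left₀ (abs_nonneg _) (hεb N) 2
    have h3 : 0 ≤ θ * (θ - 1) := mul_nonneg hθ0.le (by linarith)
    nlinarith [htel N, mul_le_mul_of_nonneg_left h1 hθ0.le, mul_le_mul_of_nonneg_left h2 h3,
      mul_nonneg h3 (sq_nonneg (ε 0))]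
  by_cases hlam : lam = 0
  · right
    -- the series is a polynomial with `∑ c n ^ 2 ≤ 1`
    have hc : Tendsto (fun n => (c n : ℝ)) atTop (𝓝 0) := by
      rw [tendsto_zero_iff_abs_tendsto_zero]
      have := hsum.tendsto_atTop_zero.sqrt
      simpa [hε, hlam, Real.sqrt_sq_eq_abs, Function.comp_def] using this
    obtain ⟨M, hM⟩ := eventually_atTop.1 (eventually_zero_of_int hc)
    have hw : Tendsto (fun k => ∑ i ∈ range (M + k + 2), θ⁻¹ ^ (M + k + 2 - 1 - i) * (c i : ℝ))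
        atTop (𝓝 0) := by
      have e : ∀ k, ∑ i ∈ range (M + k + 2), θ⁻¹ ^ (M + k + 2 - 1 - i) * (c i : ℝ) =
          θ⁻¹ ^ k * ∑ i ∈ range M, θ⁻¹ ^ (M + 1 - i) * (c i : ℝ) := fun k => by
        rw [mul_sum]
        refine (sum_subset (range_mono (by omega : M ≤ M + k + 2)) fun i _ hi => ?_).symm.trans
          (sum_congr rfl fun i hi => ?_)
        · rw [hM i (not_lt.1 fun hl => hi (mem_range.2 hl)), Int.cast_zero, mul_zero]
        · rw [mem_range] at hi
          rw [← mul_assoc, ← pow_add, show k + (M + 1 - i) = M + k + 2 - 1 - i by omega]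
      simp only [e]
      simpa using (tendsto_pow_atTop_nhds_zero_of_lt_one (inv_nonneg.2 hθ0.le) hr).mul_const _
    obtain ⟨k, hk⟩ := ((hw.pow 2).eventually_lt_const (u := 1) (by norm_num)).exists
    have h1 : (∑ n ∈ range (M + k + 2), c n ^ 2 : ℤ) < 2 := by
      have := (hB (M + k + 2)).trans_lt (by linarith : _ < (2 : ℝ))
      exact_mod_cast this
    have h2 : c 0 ^ 2 + c 1 ^ 2 ≤ ∑ n ∈ range (M + k + 2), c n ^ 2 := by
      rw [← Finset.sum_pair (f := fun n => c n ^ 2) (show (0 : ℕ) ≠ 1 by omega)]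
      refine Finset.sum_le_sum_of_subset_of_nonneg (fun i hi => ?_) fun i _ _ => sq_nonneg _
      simp only [Finset.mem_insert, Finset.mem_singleton] at hi
      rw [mem_range]
      omega
    have h3 : 0 < c 0 ^ 2 := by positivity
    have h4 : c 1 ^ 2 = 0 := by nlinarith [sq_nonneg (c 1)]
    exact ⟨by nlinarith, pow_eq_zero_iff two_ne_zero |>.1 h4⟩
  · left
    refine (isPisot_of_summable hθ hlam (hsum.of_nonneg_of_le (fun n => sq_nonneg _)
      fun n => ?_)).1
    rw [← sq_abs (lam * θ ^ n - round (lam * θ ^ n)), ← sq_abs (ε n)]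
    exact pow_le_pow_left₀ (abs_nonneg _) (round_le _ _) 2

theorem one_lt_of_limit {u : ℕ → ℝ} {x : ℝ} (hu : ∀ k, IsPisot (u k))
    (h : Tendsto u atTop (𝓝 x)) : 1 < x := by
  obtain ⟨η, hη⟩ := Smyth.exists_plastic
  have h1 : ∀ k, η ≤ u k := fun k => Smyth.pisot_ge hη (hu k).1 (hu k).2.1 (hu k).2.2
  exact (Smyth.plastic_bounds hη).1.trans_le (ge_of_tendsto' h h1)

/-- **Salem's theorem.** -/
theorem isClosed_pisotSet : IsClosed pisotSet := by
  refine IsSeqClosed.isClosed fun u x hu hlim => ?_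
  have hx : 1 < x := one_lt_of_limit hu hlim
  choose c hc0 hA hB hdeg using fun k => exists_coeffs (hu k)
  obtain ⟨T, hT⟩ : ∃ T, ∀ k, u k ≤ T := by
    obtain ⟨T, hT⟩ := hlim.bddAbove_range
    exact ⟨T, fun k => hT ⟨k, rfl⟩⟩
  -- a subsequence of the coefficient sequences converges coordinatewise
  set b : ℕ → ℤ := fun n => ⌈((n : ℝ) + 1) * (T + 1) ^ (n + 1)⌉ with hb
  have hcpt : IsCompact (Set.univ.pi fun n => Set.Icc (-b n) (b n)) :=
    isCompact_univ_pi fun n => (Set.finite_Icc _ _).isCompact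
  have hmem : ∀ k, c k ∈ Set.univ.pi fun n => Set.Icc (-b n) (b n) := fun k n _ => by
    have h1 : |c k n| ≤ b n := by
      have := (coeff_bound (hu k).1 (hT k) (hA k) n).trans (Int.le_ceil _)
      simp only [hb]
      exact_mod_cast this
    exact ⟨(abs_le.1 h1).1, (abs_le.1 h1).2⟩
  obtain ⟨g, -, φ, hφ, hg⟩ := hcpt.tendsto_subseq hmem
  have hev : ∀ n, ∀ᶠ k in atTop, c (φ k) n = g n := fun n => by
    have := tendsto_pi_nhds.1 hg n
    rw [nhds_discrete, tendsto_pure] at this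
    exact this
  have hu' : Tendsto (fun k => u (φ k)) atTop (𝓝 x) := hlim.comp hφ.tendsto_atTop
  have hcast : ∀ n, Tendsto (fun k => (c (φ k) n : ℝ)) atTop (𝓝 (g n : ℝ)) := fun n =>
    tendsto_nhds_of_eventually_eq ((hev n).mono fun k hk => by rw [hk])
  have hgA : ∀ N, (g 0 : ℝ) ^ 2 + ∑ n ∈ range N, ((g (n + 1) : ℝ) - x * g n) ^ 2 ≤ x ^ 2 + 1 :=
    fun N => le_of_tendsto_of_tendsto'
      (((hcast 0).pow 2).add (tendsto_finsetSum _ fun n _ =>
        ((hcast (n + 1)).sub (hu'.mul (hcast n))).pow 2))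
      ((hu'.pow 2).add_const 1) fun k => hA (φ k) N
  have hgB : ∀ N, ∑ n ∈ range N, (g n : ℝ) ^ 2 ≤
      1 + (∑ i ∈ range N, x⁻¹ ^ (N - 1 - i) * g i) ^ 2 := fun N =>
    le_of_tendsto_of_tendsto' (tendsto_finsetSum _ fun n _ => (hcast n).pow 2)
      (((tendsto_finsetSum _ fun i _ =>
        ((hu'.inv₀ (by linarith)).pow (N - 1 - i)).mul (hcast i)).pow 2).const_add 1)
      fun k => hB (φ k) N
  have hg0 : g 0 ≠ 0 := by
    obtain ⟨k, hk⟩ := (hev 0).exists
    exact hk ▸ hc0 (φ k)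
  refine (isPisot_of_bounds hx hg0 hgA hgB).elim id fun ⟨h0, h1⟩ => ?_
  -- eventually the numbers are quadratic units of norm one, and then constant
  obtain ⟨K, hK⟩ := eventually_atTop.1 ((hev 0).and (hev 1))
  have hint : ∀ k, K ≤ k → ∃ m : ℤ, u (φ k) + (u (φ k))⁻¹ = m := fun k hk =>
    hdeg (φ k) (by rw [(hK k hk).1, h0]) (by rw [(hK k hk).2, h1])
  have hsum : Tendsto (fun k => u (φ k) + (u (φ k))⁻¹) atTop (𝓝 (x + x⁻¹)) :=
    hu'.add (hu'.inv₀ (by linarith))
  obtain ⟨L, hL⟩ := Metric.tendsto_atTop.1 hsum (1 / 2) (by norm_num)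
  set J := max K L with hJ
  have hconst : ∀ k, J ≤ k → u (φ k) = u (φ J) := fun k hk => by
    obtain ⟨m, hm⟩ := hint k ((le_max_left K L).trans hk)
    obtain ⟨m', hm'⟩ := hint J (le_max_left K L)
    have h2 := hL k ((le_max_right K L).trans hk)
    have h3 := hL J (le_max_right K L)
    rw [hm] at h2
    rw [hm'] at h3
    have h4 : |(m : ℝ) - m'| < 1 := by
      rw [← Real.dist_eq]
      exact (dist_triangle_right _ _ (x + x⁻¹)).trans_lt (by linarith)
    have h5 : m = m' := sub_eq_zero.1 (Int.abs_lt_one_iff.1 (by exact_mod_cast h4))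
    have ha := (hu (φ k)).1
    have hb := (hu (φ J)).1
    have h6 : u (φ k) + (u (φ k))⁻¹ = u (φ J) + (u (φ J))⁻¹ := by rw [hm, hm', h5]
    field_simp at h6
    have h7 : (u (φ k) - u (φ J)) * (u (φ k) * u (φ J) - 1) = 0 := by linear_combination h6
    exact sub_eq_zero.1 ((mul_eq_zero.1 h7).resolve_right (by nlinarith))
  have hxJ : u (φ J) = x := tendsto_nhds_unique
    (tendsto_nhds_of_eventually_eq (eventually_atTop.2 ⟨J, hconst⟩)) hu'
  exact hxJ ▸ hu (φ J)

theorem countable_pisotSet : pisotSet.Countable :=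
  (Algebraic.countable ℚ ℝ).mono fun _ h => h.2.1.tower_top.isAlgebraic

/-- The Pisot numbers are nowhere dense. -/
theorem isNowhereDense_pisotSet : IsNowhereDense pisotSet := by
  rw [isClosed_pisotSet.isNowhereDense_iff, interior_eq_empty_iff_dense_compl]
  exact countable_pisotSet.dense_compl ℝ

end FA.SalemClosed

end
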